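/-
Program A (S42 / S29), leaf (A): the Kummer / Abel–Jacobi relation between parabolic
homomorphisms `Γ₀(N) → ℤ/p` and `p`-torsion classes of `JZero N`.

SHARED DEFINITIONS (designer: helper96).  FINAL once landed; ask helper96 before changing.

Conventions.
* "meromorphic `p`-th roots" never appear: every class modulo `p`-th powers of the function field
  has a POLYNOMIAL representative `C` in the `j_d`, and a root is a HOLOMORPHIC `G : ℍ → ℂ` with
  `G ^ p = Θ(C)`; the character of `G` is `ζ_p ^ ψ`.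
* over `ℚ̄`: S24 vocabulary (`FF N`, `evF`, `Theta`); over `ℂ`: `MC N`, `evC`, `ThetaC` below.
-/
import Mathlib
import Fermat.Agent.S24.ModDefs
import Fermat.Agent.S16.H75.Gamma0Hecke
import Fermat.Prelude.Def_ModularCurve_PeriodMap
import Fermat.Prelude.Def_ModularCurve_HeckeModule

set_option autoImplicit false

open UpperHalfPlane CongruenceSubgroup ModularCurve ModularCurve.Period AlgebraicCurve
open Fermat.Agent.S24
open scoped MatrixGroups Manifold

noncomputable section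

namespace Fermat.Agent.S42.H96

/-! ### Characters -/

/-- The primitive `p`-th root of unity `e^{2πi/p}`. -/
def zetaP (p : ℕ) : ℂ := Complex.exp (2 * Real.pi * Complex.I / p)

/-- The `μ_p`-valued character `ζ_p ^ ψ` of `Γ₀(N)` attached to `ψ : Γ₀(N) → ℤ/p`. -/
def chiOf {N : ℕ} (p : ℕ) (ψ : Additive (Gamma0 N) →+ ZMod p) (γ : Gamma0 N) : ℂ :=
  zetaP p ^ (ψ (Additive.ofMul γ)).val

/-- `G` transforms under `Γ₀(N)` by the character `ζ_p ^ ψ` (weight `0`). -/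
def HasChar (N p : ℕ) (ψ : Additive (Gamma0 N) →+ ZMod p) (G : ℍ → ℂ) : Prop :=
  ∀ (γ : Gamma0 N) (τ : ℍ), G ((γ : SL(2, ℤ)) • τ) = chiOf p ψ γ * G τ

/-- The parabolic homomorphisms `Γ₀(N) → ℤ/p` which kill the elements of finite order
(for `p ≥ 5` the second condition is automatic). -/
def Hp (N p : ℕ) : AddSubgroup (Additive (Gamma0 N) →+ ZMod p) where
  carrier := {ψ | IsParabolicHom (Gamma0 N) ψ ∧
    ∀ γ : Gamma0 N, IsOfFinOrder γ → ψ (Additive.ofMul γ) = 0}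
  zero_mem' := ⟨fun _ _ => rfl, fun _ _ => rfl⟩
  add_mem' := by
    rintro ψ ψ' ⟨h1, h2⟩ ⟨h1', h2'⟩
    refine ⟨fun γ hγ => ?_, fun γ hγ => ?_⟩
    · show ψ (Additive.ofMul γ) + ψ' (Additive.ofMul γ) = 0
      rw [h1 γ hγ, h1' γ hγ, add_zero]
    · show ψ (Additive.ofMul γ) + ψ' (Additive.ofMul γ) = 0
      rw [h2 γ hγ, h2' γ hγ, add_zero]
  neg_mem' := by
    rintro ψ ⟨h1, h2⟩
    refine ⟨fun γ hγ => ?_, fun γ hγ => ?_⟩
    · show -ψ (Additive.ofMul γ) = 0
      rw [h1 γ hγ, neg_zero]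
    · show -ψ (Additive.ofMul γ) = 0
      rw [h2 γ hγ, neg_zero]

theorem mem_Hp {N p : ℕ} {ψ : Additive (Gamma0 N) →+ ZMod p} :
    ψ ∈ Hp N p ↔ IsParabolicHom (Gamma0 N) ψ ∧
      ∀ γ : Gamma0 N, IsOfFinOrder γ → ψ (Additive.ofMul γ) = 0 := Iff.rfl

/-! ### The function field over `ℂ` -/

/-- The function field `M_ℂ = ℂ(j_d : d ∣ N) ⊂ ℂ((q))` of `X₀(N)` over `ℂ`. -/
abbrev MC (N : ℕ) : Type := ↥(laurentBaseChange ℂ (modularFunctionFieldFull N))

/-- The generator `j_d = j(q^d)` of `M_ℂ`. -/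
def jC (N : ℕ) (d : N.divisors) : MC N :=
  ⟨coeffEmb ℂ (qExpand ℚ (d : ℕ) jq),
    coeffEmb_mem_laurentBaseChange ℂ (jqd_mem_full N (Nat.dvd_of_mem_divisors d.2))⟩

/-- Evaluation of complex polynomials in the `j_d` inside `M_ℂ`. -/
def evC (N : ℕ) : MvPolynomial (N.divisors) ℂ →ₐ[ℂ] MC N := MvPolynomial.aeval (jC N)

/-- Evaluation of complex polynomials in the `j_d` as functions on the upper half plane. -/
def ThetaC (N : ℕ) : MvPolynomial (N.divisors) ℂ →+* (ℍ → ℂ) :=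
  MvPolynomial.eval₂Hom (Pi.constRingHom ℍ ℂ) (fun d => Jd (d : ℕ))

/-- `g ∈ M_ℂ` is the base change of `u ∈ F = ℚ̄(j_d)` (equality of `q`-expansions). -/
def IsBase (N : ℕ) (u : FF N) (g : MC N) : Prop :=
  (g : LaurentSeries ℂ) = coeffMap iota (u : LaurentSeries Kbar)

/-- The action of `σ ∈ Aut(ℂ)` on `M_ℂ` (on `q`-expansion coefficients). -/
def sigM (N : ℕ) (σ : ℂ ≃ₐ[ℚ] ℂ) (g : MC N) : MC N :=
  arithmeticGalois (modularFunctionFieldFull N) σ • g

/-! ### Root data -/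

/-- Root datum over `ℚ̄`: a holomorphic `p`-th root of `Θ(C)` with character `ζ_p ^ ψ`. -/
def RootQ (N p : ℕ) (ψ : Additive (Gamma0 N) →+ ZMod p) (C : MvPolynomial (N.divisors) Kbar) :
    Prop :=
  ∃ G : ℍ → ℂ, MDiff G ∧ (∀ τ, G τ ^ p = Theta N C τ) ∧ HasChar N p ψ G

/-- Root datum over `ℂ` for the class of `g ∈ M_ℂ` modulo `p`-th powers: `g · b^p = c` with
`c, b` polynomials in the `j_d`, and a holomorphic `p`-th root of `Θ_ℂ(c)` with character
`ζ_p ^ ψ`. -/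
def HasRootC (N p : ℕ) (ψ : Additive (Gamma0 N) →+ ZMod p) (g : MC N) : Prop :=
  ∃ (c b : MvPolynomial (N.divisors) ℂ) (G : ℍ → ℂ), evC N b ≠ 0 ∧ g * evC N b ^ p = evC N c ∧
    MDiff G ∧ (∀ τ, G τ ^ p = ThetaC N c τ) ∧ HasChar N p ψ G

/-- The algebraic property "`p` divides the order of `g` at every place of `M_ℂ` over a finite
value of `j`". -/
def PC (N : ℕ) [NeZero N] (p : ℕ) (g : MC N) : Prop :=
  ∀ v : Place ℂ (MC N), jC N (oneDiv N) ∈ v.toValuationSubring → (p : ℤ) ∣ v.ord g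

/-- **The Kummer relation** between `ψ : Γ₀(N) → ℤ/p` and a class `x ∈ JZero N`:
`x = [(1/p) div C]` for a polynomial `C` in the `j_d` such that `Θ(C)` has a holomorphic `p`-th
root with character `ζ_p ^ ψ`. -/
def Rel (N p : ℕ) (ψ : Additive (Gamma0 N) →+ ZMod p) (x : JZero N) : Prop :=
  ∃ (C : MvPolynomial (N.divisors) Kbar) (D : Divisor.degZero (K := Kbar) (F := FF N)),
    evF N C ≠ 0 ∧ (∀ v : Place Kbar (FF N), v.ord (evF N C) = p * (D : Divisor Kbar (FF N)) v) ∧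
    x = Pic0.mk D ∧ RootQ N p ψ C

end Fermat.Agent.S42.H96
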