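/-
Program A (S42 / S29), leaf (A): SKELETON (designer: helper96).

`exists_AJ_of_leaves` : the Hecke-equivariant injection `AJ : Hp N p → JZero N [p]` from the
Prop-valued leaves below.  Every internal node is PROVED here from its children's statements.

Leaves (owners prove `theorem leafXxx ... : LeafXxx N p` in their own files):
* `LeafRelAdd`   additivity of the Kummer relation                    (algebra, easy)
* `LeafZR`       `Rel ψ 0 → ψ = 0`                                     (constants + identity thm)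
* `LeafHecke`    `Rel ψ x → Rel (T_ℓ ψ) (T_ℓ x)`                       (norm = product over cosets)
* `LeafAN0`      Eisenstein series with character + analytic = algebraic over `ℂ`
* `LeafAN1`      `P(g)` ⟹ a holomorphic root with SOME character      (places `V_z` + ROOT)
* `LeafAN2`      same character ⟹ `p`-th power related                 (analytic = algebraic)
* `LeafAN3`      a root with character in `Hp` ⟹ `P(g)`                (COMP; `p ≥ 5` easy case)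
* `LeafPINV`     `P` is invariant under `Aut(ℂ)`                        (formal)
* `LeafFIN`      `Hom(Γ₀(N), ℤ/p)` is finite
* `LeafRigAlg`   rigidity: pigeonhole over `Aut(ℂ/ℚ̄)` + specialisation (pure algebra)
* `LeafDesc`     a `p`-th power in `M_ℂ` of an element of `F` is a `p`-th power in `F`
* `LeafAN5`      root data are stable under multiplication by `p`-th powers
* `LeafAN6`      root data over `ℂ` for a base-changed element ⟹ root data over `ℚ̄`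
* `LeafORD`      a root with PARABOLIC character ⟹ `p ∣ ord` at ALL places of `F` (cusps too)
* `LeafDict`     `evC (C.map ι) = base change of evF C`, `ThetaC (C.map ι) = Theta C`
-/
import Mathlib
import Fermat.Agent.S42.H96.Defs
import Fermat.Agent.S24.Exp
import Fermat.Agent.S18.H13.PrincDiv

set_option autoImplicit false

open UpperHalfPlane CongruenceSubgroup ModularCurve ModularCurve.Period AlgebraicCurve
open Fermat.Agent.S24 Fermat.Agent.S16.H75
open scoped MatrixGroups Manifold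

noncomputable section

namespace Fermat.Agent.S42.H96

/-! ### The leaves -/

def LeafRelAdd (N p : ℕ) : Prop :=
  ∀ (ψ ψ' : Additive (Gamma0 N) →+ ZMod p) (x x' : JZero N),
    Rel N p ψ x → Rel N p ψ' x' → Rel N p (ψ + ψ') (x + x')

def LeafZR (N p : ℕ) : Prop :=
  ∀ ψ : Additive (Gamma0 N) →+ ZMod p, Rel N p ψ 0 → ψ = 0

def LeafHecke (N p : ℕ) [NeZero N] : Prop :=
  ∀ ℓ : Nat.Primes, ¬ (ℓ : ℕ) ∣ N → ∀ (ψ : Additive (Gamma0 N) →+ ZMod p) (x : JZero N),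
    Rel N p ψ x → Rel N p (heckeHom N ℓ (ZMod p) ψ) (heckeOperatorBar N ℓ x)

def LeafAN0 (N p : ℕ) : Prop :=
  ∀ ψ ∈ Hp N p, ∃ g : MC N, g ≠ 0 ∧ HasRootC N p ψ g

def LeafAN1 (N p : ℕ) [NeZero N] : Prop :=
  ∀ g : MC N, g ≠ 0 → PC N p g → ∃ ψ : Additive (Gamma0 N) →+ ZMod p, HasRootC N p ψ g

def LeafAN2 (N p : ℕ) : Prop :=
  ∀ (ψ : Additive (Gamma0 N) →+ ZMod p) (g₁ g₂ : MC N), g₁ ≠ 0 → g₂ ≠ 0 →
    HasRootC N p ψ g₁ → HasRootC N p ψ g₂ → ∃ w : MC N, w ≠ 0 ∧ g₁ = g₂ * w ^ p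

def LeafAN3 (N p : ℕ) [NeZero N] : Prop :=
  ∀ ψ ∈ Hp N p, ∀ g : MC N, g ≠ 0 → HasRootC N p ψ g → PC N p g

def LeafPINV (N p : ℕ) [NeZero N] : Prop :=
  ∀ (σ : ℂ ≃ₐ[ℚ] ℂ) (g : MC N), PC N p g → PC N p (sigM N σ g)

def LeafFIN (N p : ℕ) : Prop := Finite (Additive (Gamma0 N) →+ ZMod p)

def LeafRigAlg (N p : ℕ) : Prop :=
  ∀ (P : MC N → Prop) (T : Type), Finite T → ∀ κ : MC N → T,
    (∀ σ : ℂ ≃ₐ[ℚ] ℂ, (∀ a : Kbar, σ (iota a) = iota a) → ∀ g, g ≠ 0 → P g → P (sigM N σ g)) →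
    (∀ g₁ g₂, g₁ ≠ 0 → g₂ ≠ 0 → P g₁ → P g₂ → κ g₁ = κ g₂ →
      ∃ w : MC N, w ≠ 0 ∧ g₁ = g₂ * w ^ p) →
    ∀ f, f ≠ 0 → P f → ∃ (u : FF N) (g w : MC N), IsBase N u g ∧ w ≠ 0 ∧ f = g * w ^ p

def LeafDesc (N p : ℕ) : Prop :=
  ∀ (u : FF N) (g w : MC N), IsBase N u g → g = w ^ p → ∃ w₀ : FF N, u = w₀ ^ p

def LeafAN5 (N p : ℕ) : Prop :=
  ∀ (ψ : Additive (Gamma0 N) →+ ZMod p) (g g' w : MC N), HasRootC N p ψ g → w ≠ 0 →
    g = g' * w ^ p → HasRootC N p ψ g'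

def LeafAN6 (N p : ℕ) : Prop :=
  ∀ (ψ : Additive (Gamma0 N) →+ ZMod p) (u : FF N) (g : MC N), IsBase N u g → g ≠ 0 →
    HasRootC N p ψ g → ∃ C : MvPolynomial (N.divisors) Kbar, evF N C ≠ 0 ∧ RootQ N p ψ C

def LeafORD (N p : ℕ) : Prop :=
  ∀ ψ ∈ Hp N p, ∀ C : MvPolynomial (N.divisors) Kbar, evF N C ≠ 0 → RootQ N p ψ C →
    ∀ v : Place Kbar (FF N), (p : ℤ) ∣ v.ord (evF N C)

def LeafDict (N : ℕ) : Prop :=
  ∀ C : MvPolynomial (N.divisors) Kbar,
    IsBase N (evF N C) (evC N (MvPolynomial.map iota C)) ∧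
      ThetaC N (MvPolynomial.map iota C) = Theta N C

/-! ### Elementary facts about the relation -/

theorem chiOf_zero {N : ℕ} (p : ℕ) (γ : Gamma0 N) :
    chiOf p (0 : Additive (Gamma0 N) →+ ZMod p) γ = 1 := by
  simp [chiOf]

theorem hasChar_zero_one (N p : ℕ) : HasChar N p 0 (fun _ => (1 : ℂ)) := by
  intro γ τ
  rw [chiOf_zero, one_mul]

theorem mdiff_one : MDiff (fun _ : ℍ => (1 : ℂ)) := mdifferentiable_const

/-- `Rel 0 0`. -/
theorem rel_zero (N p : ℕ) : Rel N p 0 0 := by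
  refine ⟨1, 0, ?_, fun v => ?_, rfl, fun _ => 1, mdiff_one, fun τ => ?_, hasChar_zero_one N p⟩
  · rw [map_one]; exact one_ne_zero
  · rw [map_one, Place.ord_one]; simp
  · rw [map_one]; simp

/-- A class in relation with some `ψ` is killed by `p`. -/
theorem rel_torsion {N p : ℕ} {ψ : Additive (Gamma0 N) →+ ZMod p} {x : JZero N}
    (h : Rel N p ψ x) : p • x = 0 := by
  obtain ⟨C, D, hC, hD, rfl, -⟩ := h
  have hmem : p • D ∈ (Divisor.principal (K := Kbar) (F := FF N)).addSubgroupOf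
      (Divisor.degZero (K := Kbar) (F := FF N)) := by
    rw [AddSubgroup.mem_addSubgroupOf]
    refine ⟨evF N C, hC, fun v => ?_⟩
    rw [hD v]
    simp
  have : Pic0.mk (p • D) = 0 := (QuotientAddGroup.eq_zero_iff _).mpr hmem
  rw [← this]
  rfl

theorem rel_nsmul {N p : ℕ} (hadd : LeafRelAdd N p) {ψ : Additive (Gamma0 N) →+ ZMod p}
    {x : JZero N} (h : Rel N p ψ x) (n : ℕ) : Rel N p (n • ψ) (n • x) := by
  induction n with
  | zero => simpa using rel_zero N p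
  | succ n ih =>
    rw [succ_nsmul, succ_nsmul]
    exact hadd _ _ _ _ ih h

theorem nsmul_hom_eq_zero {N p : ℕ} (ψ : Additive (Gamma0 N) →+ ZMod p) : p • ψ = 0 := by
  ext γ
  simp

/-! ### Node (I2): `Rel 0 x → x = 0` -/

theorem relZeroLeft_of_leaves {N p : ℕ} (hp : p ≠ 0) (hdict : LeafDict N) (han2 : LeafAN2 N p)
    (hdesc : LeafDesc N p) (x : JZero N) (h : Rel N p 0 x) : x = 0 := by
  obtain ⟨C, D, hC, hD, rfl, G, hG, hGp, hGc⟩ := h
  obtain ⟨hbase, hTh⟩ := hdict C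
  set g : MC N := evC N (MvPolynomial.map iota C) with hg
  have hg0 : g ≠ 0 := by
    intro h0
    apply hC
    have h1 : coeffMap iota ((evF N C : FF N) : LaurentSeries Kbar) = coeffMap iota 0 := by
      rw [← hbase, h0, map_zero]
      rfl
    exact Subtype.ext (coeffMap_injective iota h1)
  have hr1 : HasRootC N p 0 g := by
    refine ⟨MvPolynomial.map iota C, 1, G, ?_, ?_, hG, fun τ => ?_, hGc⟩
    · rw [map_one]; exact one_ne_zero
    · rw [map_one, one_pow, mul_one]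
    · rw [hGp τ, hTh]
  have hr2 : HasRootC N p 0 (1 : MC N) := by
    refine ⟨1, 1, fun _ => 1, ?_, ?_, mdiff_one, fun τ => ?_, hasChar_zero_one N p⟩
    · rw [map_one]; exact one_ne_zero
    · rw [map_one, one_pow, mul_one]
    · rw [map_one]; simp
  obtain ⟨w, -, hw⟩ := han2 0 g 1 hg0 one_ne_zero hr1 hr2
  rw [one_mul] at hw
  obtain ⟨w₀, hw₀⟩ := hdesc (evF N C) g w hbase hw
  have hw₀0 : w₀ ≠ 0 := by
    rintro rfl
    apply hC
    rw [hw₀, zero_pow hp]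
  have hmem : D ∈ (Divisor.principal (K := Kbar) (F := FF N)).addSubgroupOf
      (Divisor.degZero (K := Kbar) (F := FF N)) := by
    rw [AddSubgroup.mem_addSubgroupOf]
    refine ⟨w₀, hw₀0, fun v => ?_⟩
    have h1 := hD v
    rw [hw₀, ← zpow_natCast, Place.ord_zpow] at h1
    have hp' : (p : ℤ) ≠ 0 := by exact_mod_cast hp
    exact (mul_left_cancel₀ hp' h1).symm
  exact (QuotientAddGroup.eq_zero_iff _).mpr hmem

/-! ### Node (I3): rigidity -/

theorem rig_of_leaves {N p : ℕ} [NeZero N] (hfin : LeafFIN N p) (hrig : LeafRigAlg N p)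
    (han1 : LeafAN1 N p) (han2 : LeafAN2 N p) (hpinv : LeafPINV N p)
    (f : MC N) (hf : f ≠ 0) (hPf : PC N p f) :
    ∃ (u : FF N) (g w : MC N), IsBase N u g ∧ w ≠ 0 ∧ f = g * w ^ p := by
  classical
  let κ : MC N → (Additive (Gamma0 N) →+ ZMod p) := fun g =>
    if h : ∃ ψ : Additive (Gamma0 N) →+ ZMod p, HasRootC N p ψ g then h.choose else 0
  have hκ : ∀ g, g ≠ 0 → PC N p g → HasRootC N p (κ g) g := by
    intro g hg hP
    have h := han1 g hg hP
    show HasRootC N p (if h : ∃ ψ : Additive (Gamma0 N) →+ ZMod p, HasRootC N p ψ g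
      then h.choose else 0) g
    rw [dif_pos h]
    exact h.choose_spec
  refine hrig (fun g => PC N p g) _ hfin κ (fun σ _ g _ hg => hpinv σ g hg) ?_ f hf hPf
  intro g₁ g₂ h1 h2 hP1 hP2 hκeq
  have hr1 := hκ g₁ h1 hP1
  have hr2 := hκ g₂ h2 hP2
  rw [hκeq] at hr1
  exact han2 _ g₁ g₂ h1 h2 hr1 hr2

/-! ### Node (I1): existence -/

theorem relExists_of_leaves {N p : ℕ} [NeZero N] (hp : p ≠ 0)
    (han0 : LeafAN0 N p) (han3 : LeafAN3 N p) (hfin : LeafFIN N p) (hrig : LeafRigAlg N p)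
    (han1 : LeafAN1 N p) (han2 : LeafAN2 N p) (hpinv : LeafPINV N p) (han5 : LeafAN5 N p)
    (han6 : LeafAN6 N p) (hord : LeafORD N p)
    (ψ : Additive (Gamma0 N) →+ ZMod p) (hψ : ψ ∈ Hp N p) : ∃ x : JZero N, Rel N p ψ x := by
  obtain ⟨f, hf, hrf⟩ := han0 ψ hψ
  have hPf : PC N p f := han3 ψ hψ f hf hrf
  obtain ⟨u, g, w, hbase, hw, hfg⟩ := rig_of_leaves hfin hrig han1 han2 hpinv f hf hPf
  have hg0 : g ≠ 0 := by
    rintro rfl
    exact hf (by rw [hfg, zero_mul])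
  have hrg : HasRootC N p ψ g := han5 ψ f g w hrf hw hfg
  obtain ⟨C, hC, hroot⟩ := han6 ψ u g hbase hg0 hrg
  have hdvd := hord ψ hψ C hC hroot
  have := Fermat.Agent.S18.H13.hasPrincipalDivisors_FF N
  obtain ⟨D, hD, hdeg⟩ := HasPrincipalDivisors.exists_divisor (K := Kbar) (evF N C) hC
  have hp' : (p : ℤ) ≠ 0 := by exact_mod_cast hp
  -- the divisor `(1/p) div C`
  let D' : Divisor Kbar (FF N) := D.mapRange (fun n : ℤ => n / (p : ℤ)) (by simp)
  have hD' : ∀ v, D v = p * D' v := by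
    intro v
    show D v = p * (D v / (p : ℤ))
    rw [hD v]
    exact (Int.mul_ediv_cancel' (hdvd v)).symm
  have hsmul : (p : ℤ) • D' = D := by
    ext v
    rw [Finsupp.smul_apply, smul_eq_mul, ← hD' v]
  have hdeg' : Divisor.degree D' = 0 := by
    have h1 : (p : ℤ) • Divisor.degree D' = 0 := by
      rw [← map_zsmul, hsmul, hdeg]
    rcases smul_eq_zero.mp h1 with h | h
    · exact absurd h hp'
    · exact h
  refine ⟨Pic0.mk ⟨D', hdeg'⟩, C, ⟨D', hdeg'⟩, hC, fun v => ?_, rfl, hroot⟩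
  rw [← hD v, hD' v]

/-! ### Node (I0): the map `AJ` -/

/-- Uniqueness of the class in relation with `ψ`. -/
theorem rel_unique {N p : ℕ} (hp : p ≠ 0) (hadd : LeafRelAdd N p)
    (hZL : ∀ x : JZero N, Rel N p 0 x → x = 0) {ψ : Additive (Gamma0 N) →+ ZMod p}
    {x x' : JZero N} (h : Rel N p ψ x) (h' : Rel N p ψ x') : x = x' := by
  obtain ⟨n, rfl⟩ : ∃ n, p = n + 1 := Nat.exists_eq_succ_of_ne_zero hp
  have h1 := hadd _ _ _ _ h (rel_nsmul hadd h' n)
  have h2 : ψ + n • ψ = 0 := by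
    rw [← succ_nsmul']
    exact nsmul_hom_eq_zero ψ
  rw [h2] at h1
  have h3 := hZL _ h1
  have h4 : (n + 1) • x' = 0 := rel_torsion h'
  rw [succ_nsmul] at h4
  have : x - x' = 0 := by
    have : x - x' = (x + n • x') - (n • x' + x') := by abel
    rw [this, h3, h4, sub_zero]
  exact sub_eq_zero.mp this

/-- **Leaf (A) of Program A from its leaves**: a Hecke-equivariant injection
`AJ : Hp N p → JZero N [p]`. -/
theorem exists_AJ_of_leaves {N p : ℕ} [NeZero N] (hp : p ≠ 0)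
    (hadd : LeafRelAdd N p) (hZR : LeafZR N p) (hhecke : LeafHecke N p)
    (hZL : ∀ x : JZero N, Rel N p 0 x → x = 0)
    (hex : ∀ ψ ∈ Hp N p, ∃ x : JZero N, Rel N p ψ x) :
    ∃ AJ : ↥(Hp N p) →+ JZero N, Function.Injective AJ ∧ (∀ ψ, p • AJ ψ = 0) ∧
      (∀ ψ : ↥(Hp N p), Rel N p (ψ : Additive (Gamma0 N) →+ ZMod p) (AJ ψ)) ∧
      ∀ (ℓ : Nat.Primes), ¬ (ℓ : ℕ) ∣ N → ∀ (ψ : ↥(Hp N p))
        (h : heckeHom N ℓ (ZMod p) (ψ : Additive (Gamma0 N) →+ ZMod p) ∈ Hp N p),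
        heckeOperatorBar N ℓ (AJ ψ) = AJ ⟨heckeHom N ℓ (ZMod p) ψ, h⟩ := by
  classical
  choose! a ha using hex
  have hrel : ∀ ψ : ↥(Hp N p), Rel N p (ψ : Additive (Gamma0 N) →+ ZMod p) (a ψ) :=
    fun ψ => ha ψ ψ.2
  let AJ : ↥(Hp N p) →+ JZero N :=
    { toFun := fun ψ => a ψ
      map_zero' := hZL _ (hrel 0)
      map_add' := fun ψ ψ' =>
        rel_unique hp hadd hZL (hrel (ψ + ψ')) (hadd _ _ _ _ (hrel ψ) (hrel ψ')) }
  refine ⟨AJ, ?_, fun ψ => rel_torsion (hrel ψ), hrel, fun ℓ hℓ ψ h => ?_⟩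
  · rw [injective_iff_map_eq_zero]
    intro ψ hψ
    have h0 : Rel N p (ψ : Additive (Gamma0 N) →+ ZMod p) 0 := by
      have := hrel ψ
      rwa [show a (ψ : Additive (Gamma0 N) →+ ZMod p) = 0 from hψ] at this
    exact Subtype.ext (hZR _ h0)
  · exact rel_unique hp hadd hZL (hhecke ℓ hℓ _ _ (hrel ψ)) (hrel ⟨_, h⟩)

/-- **Leaf (A) of Program A**, from all the leaves. -/
theorem exists_AJ {N p : ℕ} [NeZero N] (hp : p ≠ 0)
    (hadd : LeafRelAdd N p) (hZR : LeafZR N p) (hhecke : LeafHecke N p)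
    (hdict : LeafDict N) (hdesc : LeafDesc N p)
    (han0 : LeafAN0 N p) (han1 : LeafAN1 N p) (han2 : LeafAN2 N p) (han3 : LeafAN3 N p)
    (hpinv : LeafPINV N p) (hfin : LeafFIN N p) (hrig : LeafRigAlg N p) (han5 : LeafAN5 N p)
    (han6 : LeafAN6 N p) (hord : LeafORD N p) :
    ∃ AJ : ↥(Hp N p) →+ JZero N, Function.Injective AJ ∧ (∀ ψ, p • AJ ψ = 0) ∧
      (∀ ψ : ↥(Hp N p), Rel N p (ψ : Additive (Gamma0 N) →+ ZMod p) (AJ ψ)) ∧
      ∀ (ℓ : Nat.Primes), ¬ (ℓ : ℕ) ∣ N → ∀ (ψ : ↥(Hp N p))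
        (h : heckeHom N ℓ (ZMod p) (ψ : Additive (Gamma0 N) →+ ZMod p) ∈ Hp N p),
        heckeOperatorBar N ℓ (AJ ψ) = AJ ⟨heckeHom N ℓ (ZMod p) ψ, h⟩ :=
  exists_AJ_of_leaves hp hadd hZR hhecke
    (relZeroLeft_of_leaves hp hdict han2 hdesc)
    (relExists_of_leaves hp han0 han3 hfin hrig han1 han2 hpinv han5 han6 hord)

end Fermat.Agent.S42.H96
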