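/-
Program A, AJ core: FINAL ASSEMBLY.  All fifteen leaves of `Skeleton.lean` are on main; this file
plugs them into `exists_AJ` and states the two consumer shapes:

* `exists_AJ_all`  : the analytic/algebraic Abel–Jacobi torsion embedding at any modulus `p ≠ 0`;
* `exists_AJ_pow`  : the integral shape (R1) for the modulus `m` (use `m := p ^ n`).

(helper96; leaves by helpers 5, 13, 16, 20, 33, 37, 53, 59, 61, 80, 96.)
-/
import Mathlib
import Fermat.Agent.S42.H96.Stage1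
import Fermat.Agent.S42.H33.LeafZR
import Fermat.Agent.S42.H13.LeafHecke
import Fermat.Agent.S42.H80.LeafAN0
import Fermat.Agent.S42.H5.LeafAN1
import Fermat.Agent.S42.H61.LeafAN3
import Fermat.Agent.S42.H59.Leaves
import Fermat.Agent.S42.H20.LeafAN6

set_option autoImplicit false

open UpperHalfPlane CongruenceSubgroup ModularCurve ModularCurve.Period AlgebraicCurve
open Fermat.Agent.S24 Fermat.Agent.S16.H75
open scoped MatrixGroups Manifold

noncomputable section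

namespace Fermat.Agent.S42.H96

/-- **The AJ core** at every level `N ≥ 1` and every modulus `p ≠ 0` (prime or not):
an injective homomorphism from the parabolic homomorphisms `Γ₀(N) → ℤ/p` killing elements of
finite order into `J₀(N)(ℚ̄)`, with image in the `p`-torsion, characterised by the relation
`Rel`, and equivariant for the Hecke operators `T_ℓ`, `ℓ ∤ N`. -/
theorem exists_AJ_all (N p : ℕ) [NeZero N] (hp : p ≠ 0) :
    ∃ AJ : ↥(Hp N p) →+ JZero N, Function.Injective AJ ∧ (∀ ψ, p • AJ ψ = 0) ∧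
      (∀ ψ : ↥(Hp N p), Rel N p (ψ : Additive (Gamma0 N) →+ ZMod p) (AJ ψ)) ∧
      ∀ (ℓ : Nat.Primes), ¬ (ℓ : ℕ) ∣ N → ∀ (ψ : ↥(Hp N p))
        (h : heckeHom N ℓ (ZMod p) (ψ : Additive (Gamma0 N) →+ ZMod p) ∈ Hp N p),
        heckeOperatorBar N ℓ (AJ ψ) = AJ ⟨heckeHom N ℓ (ZMod p) ψ, h⟩ :=
  exists_AJ_stage1 hp (Fermat.Agent.S42.H33.leafZR N p hp) (Fermat.Agent.S42.H13.leafHecke N p hp)
    (Fermat.Agent.S42.H59.leafDesc N p) (Fermat.Agent.S42.H80.leafAN0 N p hp)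
    (Fermat.Agent.S42.H5.leafAN1 N p hp) (Fermat.Agent.S42.H61.leafAN3 (N := N) p)
    (Fermat.Agent.S42.H59.leafRigAlg N p hp) (Fermat.Agent.S42.H20.leafAN6 N p hp)

/-- **Shape (R1)**: for every level `N ≥ 1` and every modulus `m ≠ 0` a homomorphism from the
integral parabolic homomorphisms `L = parabolicHoms ℤ (Gamma0 N) ℤ` to `J₀(N)(ℚ̄)` with kernel
exactly `m • L`, image killed by `m`, and Hecke-equivariant for `T_ℓ`, `ℓ ∤ N`. -/
theorem exists_AJ_pow (N m : ℕ) [NeZero N] (hm : m ≠ 0) :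
    ∃ AJ : ↥(parabolicHoms ℤ (Gamma0 N) ℤ) →+ JZero N,
      (∀ ψ, AJ ψ = 0 ↔ ∃ φ : ↥(parabolicHoms ℤ (Gamma0 N) ℤ), ψ = m • φ) ∧
      (∀ ψ, m • AJ ψ = 0) ∧
      ∀ (ℓ : Nat.Primes), ¬ (ℓ : ℕ) ∣ N → ∀ ψ : ↥(parabolicHoms ℤ (Gamma0 N) ℤ),
        heckeOperatorBar N ℓ (AJ ψ) =
          AJ ⟨heckeHom N ℓ ℤ ψ, Fermat.Agent.S41.H26.heckeHom_mem_parabolicHoms N ℓ ψ.2⟩ :=
  exists_AJ_int (exists_AJ_all N m hm)

end Fermat.Agent.S42.H96
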