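/-
Program A, AJ core: the integral shape (R1) of lead note 17.

From the AJ core at modulus `m` (`exists_AJ` / `exists_AJ'` with `p := m`, e.g. `m = p ^ n`):
a homomorphism `AJ : L → JZero N`, `L = parabolicHoms ℤ (Gamma0 N) ℤ`, with kernel exactly `m • L`
and Hecke-equivariant for `heckeHom N ℓ ℤ`, `ℓ ∤ N`.  (helper96)
-/
import Mathlib
import Fermat.Agent.S42.H96.Skeleton
import Fermat.Agent.S41.H26.ParabolicHecke

set_option autoImplicit false

open UpperHalfPlane CongruenceSubgroup ModularCurve ModularCurve.Period AlgebraicCurve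
open Fermat.Agent.S24 Fermat.Agent.S16.H75
open scoped MatrixGroups Manifold

noncomputable section

namespace Fermat.Agent.S42.H96

/-- Reduction modulo `m` of an integral homomorphism. -/
def redHom (N m : ℕ) (ψ : Additive (Gamma0 N) →+ ℤ) : Additive (Gamma0 N) →+ ZMod m :=
  (Int.castAddHom (ZMod m)).comp ψ

@[simp] theorem redHom_apply (N m : ℕ) (ψ : Additive (Gamma0 N) →+ ℤ) (γ : Additive (Gamma0 N)) :
    redHom N m ψ γ = ((ψ γ : ℤ) : ZMod m) := rfl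

theorem redHom_add (N m : ℕ) (ψ ψ' : Additive (Gamma0 N) →+ ℤ) :
    redHom N m (ψ + ψ') = redHom N m ψ + redHom N m ψ' := by
  refine AddMonoidHom.ext fun γ => ?_
  simp

/-- The reduction of an integral parabolic homomorphism lies in `Hp`. -/
theorem redHom_mem_Hp {N : ℕ} (m : ℕ) {ψ : Additive (Gamma0 N) →+ ℤ}
    (hψ : ψ ∈ parabolicHoms ℤ (Gamma0 N) ℤ) : redHom N m ψ ∈ Hp N m := by
  refine ⟨fun γ hγ => ?_, fun γ hγ => ?_⟩
  · rw [redHom_apply, hψ γ hγ, Int.cast_zero]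
  · obtain ⟨k, hk, hγk⟩ := isOfFinOrder_iff_pow_eq_one.mp hγ
    have h1 : k • ψ (Additive.ofMul γ) = 0 := by
      rw [← map_nsmul, ← ofMul_pow, hγk, ofMul_one, map_zero]
    have h2 : ψ (Additive.ofMul γ) = 0 := by
      rcases smul_eq_zero.mp h1 with h | h
      · exact absurd h hk.ne'
      · exact h
    rw [redHom_apply, h2, Int.cast_zero]

/-- The kernel of the reduction on `L` is `m • L`. -/
theorem redHom_eq_zero_iff {N : ℕ} (m : ℕ) (ψ : ↥(parabolicHoms ℤ (Gamma0 N) ℤ)) :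
    redHom N m ψ = 0 ↔ ∃ φ : ↥(parabolicHoms ℤ (Gamma0 N) ℤ), ψ = m • φ := by
  constructor
  · intro h
    have hdvd : ∀ γ, (m : ℤ) ∣ (ψ : Additive (Gamma0 N) →+ ℤ) γ := by
      intro γ
      have := DFunLike.congr_fun h γ
      rw [redHom_apply] at this
      exact (ZMod.intCast_zmod_eq_zero_iff_dvd _ _).mp this
    let φ : Additive (Gamma0 N) →+ ℤ :=
      { toFun := fun γ => (ψ : Additive (Gamma0 N) →+ ℤ) γ / (m : ℤ)
        map_zero' := by simp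
        map_add' := fun a b => by
          show (ψ : Additive (Gamma0 N) →+ ℤ) (a + b) / (m : ℤ) = _
          rw [map_add, Int.add_ediv_of_dvd_left (hdvd a)] }
    have hφ : φ ∈ parabolicHoms ℤ (Gamma0 N) ℤ := by
      intro γ hγ
      show (ψ : Additive (Gamma0 N) →+ ℤ) (Additive.ofMul γ) / (m : ℤ) = 0
      rw [ψ.2 γ hγ, Int.zero_ediv]
    refine ⟨⟨φ, hφ⟩, Subtype.ext ?_⟩
    refine AddMonoidHom.ext fun γ => ?_
    show (ψ : Additive (Gamma0 N) →+ ℤ) γ = (m • φ) γ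
    rw [AddMonoidHom.nsmul_apply, nsmul_eq_mul]
    exact (Int.mul_ediv_cancel' (hdvd γ)).symm
  · rintro ⟨φ, rfl⟩
    refine AddMonoidHom.ext fun γ => ?_
    show (((m • (φ : Additive (Gamma0 N) →+ ℤ)) γ : ℤ) : ZMod m) = 0
    rw [AddMonoidHom.nsmul_apply, nsmul_eq_mul]
    push_cast
    simp

/-- **Shape (R1)** (lead note 17) from the AJ core at modulus `m`. -/
theorem exists_AJ_int {N m : ℕ} [NeZero N]
    (hAJ : ∃ AJ : ↥(Hp N m) →+ JZero N, Function.Injective AJ ∧ (∀ ψ, m • AJ ψ = 0) ∧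
      (∀ ψ : ↥(Hp N m), Rel N m (ψ : Additive (Gamma0 N) →+ ZMod m) (AJ ψ)) ∧
      ∀ (ℓ : Nat.Primes), ¬ (ℓ : ℕ) ∣ N → ∀ (ψ : ↥(Hp N m))
        (h : heckeHom N ℓ (ZMod m) (ψ : Additive (Gamma0 N) →+ ZMod m) ∈ Hp N m),
        heckeOperatorBar N ℓ (AJ ψ) = AJ ⟨heckeHom N ℓ (ZMod m) ψ, h⟩) :
    ∃ AJ : ↥(parabolicHoms ℤ (Gamma0 N) ℤ) →+ JZero N,
      (∀ ψ, AJ ψ = 0 ↔ ∃ φ : ↥(parabolicHoms ℤ (Gamma0 N) ℤ), ψ = m • φ) ∧
      (∀ ψ, m • AJ ψ = 0) ∧
      ∀ (ℓ : Nat.Primes), ¬ (ℓ : ℕ) ∣ N → ∀ ψ : ↥(parabolicHoms ℤ (Gamma0 N) ℤ),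
        heckeOperatorBar N ℓ (AJ ψ) =
          AJ ⟨heckeHom N ℓ ℤ ψ, Fermat.Agent.S41.H26.heckeHom_mem_parabolicHoms N ℓ ψ.2⟩ := by
  obtain ⟨AJ, hinj, htors, -, hhecke⟩ := hAJ
  let red : ↥(parabolicHoms ℤ (Gamma0 N) ℤ) →+ ↥(Hp N m) :=
    { toFun := fun ψ => ⟨redHom N m ψ, redHom_mem_Hp m ψ.2⟩
      map_zero' := Subtype.ext (AddMonoidHom.ext fun γ => by simp)
      map_add' := fun ψ ψ' => Subtype.ext (redHom_add N m ψ ψ') }
  refine ⟨AJ.comp red, fun ψ => ?_, fun ψ => htors _, fun ℓ hℓ ψ => ?_⟩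
  · rw [AddMonoidHom.comp_apply, ← redHom_eq_zero_iff m ψ]
    constructor
    · intro h
      have := hinj (h.trans (map_zero AJ).symm)
      exact congrArg Subtype.val this
    · intro h
      have : red ψ = 0 := Subtype.ext h
      rw [this, map_zero]
  · have hcomp : heckeHom N ℓ (ZMod m) (redHom N m ψ) = redHom N m (heckeHom N ℓ ℤ ψ) :=
      heckeHom_comp N ℓ (Int.castAddHom (ZMod m)) ψ
    have hmem : heckeHom N ℓ (ZMod m) ((red ψ : ↥(Hp N m)) : Additive (Gamma0 N) →+ ZMod m)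
        ∈ Hp N m := by
      show heckeHom N ℓ (ZMod m) (redHom N m ψ) ∈ Hp N m
      rw [hcomp]
      exact redHom_mem_Hp m (Fermat.Agent.S41.H26.heckeHom_mem_parabolicHoms N ℓ ψ.2)
    rw [AddMonoidHom.comp_apply, hhecke ℓ hℓ (red ψ) hmem, AddMonoidHom.comp_apply]
    congr 1
    exact Subtype.ext hcomp

end Fermat.Agent.S42.H96
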