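/-
Program A, AJ core: the descent `ℂ → ℚ̄` as ONE statement (`LeafDescent`), so that the three
independent routes (RIG = pigeonhole + specialisation; K6 = normalised multiplier function;
DESC = abstract constant-family descent) plug into the same skeleton.  (helper96)
-/
import Mathlib
import Fermat.Agent.S42.H96.Skeleton

set_option autoImplicit false

open UpperHalfPlane CongruenceSubgroup ModularCurve ModularCurve.Period AlgebraicCurve
open Fermat.Agent.S24 Fermat.Agent.S16.H75
open scoped MatrixGroups Manifold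

noncomputable section

namespace Fermat.Agent.S42.H96

/-- **The descent statement.** An element of `M_ℂ` which has a holomorphic root datum with a
character in `Hp` is, up to a `p`-th power of `M_ℂ`, the base change of an element of the
function field over `ℚ̄`. -/
def LeafDescent (N p : ℕ) : Prop :=
  ∀ ψ ∈ Hp N p, ∀ f : MC N, f ≠ 0 → HasRootC N p ψ f →
    ∃ (u : FF N) (g w : MC N), IsBase N u g ∧ w ≠ 0 ∧ f = g * w ^ p

/-- Route RIG: the descent from the rigidity leaves of `Skeleton.lean`. -/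
theorem descent_of_rig {N p : ℕ} [NeZero N] (han3 : LeafAN3 N p) (hfin : LeafFIN N p)
    (hrig : LeafRigAlg N p) (han1 : LeafAN1 N p) (han2 : LeafAN2 N p) (hpinv : LeafPINV N p) :
    LeafDescent N p :=
  fun ψ hψ f hf hrf => rig_of_leaves hfin hrig han1 han2 hpinv f hf (han3 ψ hψ f hf hrf)

/-- Existence of a class in relation with `ψ ∈ Hp`, from the descent statement. -/
theorem relExists_of_descent {N p : ℕ} [NeZero N] (hp : p ≠ 0)
    (han0 : LeafAN0 N p) (hdescent : LeafDescent N p) (han5 : LeafAN5 N p)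
    (han6 : LeafAN6 N p) (hord : LeafORD N p)
    (ψ : Additive (Gamma0 N) →+ ZMod p) (hψ : ψ ∈ Hp N p) : ∃ x : JZero N, Rel N p ψ x := by
  obtain ⟨f, hf, hrf⟩ := han0 ψ hψ
  obtain ⟨u, g, w, hbase, hw, hfg⟩ := hdescent ψ hψ f hf hrf
  have hg0 : g ≠ 0 := by
    rintro rfl
    exact hf (by rw [hfg, zero_mul])
  have hrg : HasRootC N p ψ g := han5 ψ f g w hrf hw hfg
  obtain ⟨C, hC, hroot⟩ := han6 ψ u g hbase hg0 hrg
  have hdvd := hord ψ hψ C hC hroot
  have := Fermat.Agent.S18.H13.hasPrincipalDivisors_FF N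
  obtain ⟨D, hD, hdeg⟩ := HasPrincipalDivisors.exists_divisor (K := Kbar) (evF N C) hC
  have hp' : (p : ℤ) ≠ 0 := by exact_mod_cast hp
  let D' : Divisor Kbar (FF N) := D.mapRange (fun n : ℤ => n / (p : ℤ)) (by simp)
  have hD' : ∀ v, D v = p * D' v := by
    intro v
    show D v = p * (D v / (p : ℤ))
    rw [hD v]
    exact (Int.mul_ediv_cancel' (hdvd v)).symm
  have hsmul : (p : ℤ) • D' = D := by
    ext v
    rw [Finsupp.smul_apply, smul_eq_mul, ← hD' v]
  have hdeg' : Divisor.degree D' = 0 := by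
    have h1 : (p : ℤ) • Divisor.degree D' = 0 := by
      rw [← map_zsmul, hsmul, hdeg]
    rcases smul_eq_zero.mp h1 with h | h
    · exact absurd h hp'
    · exact h
  refine ⟨Pic0.mk ⟨D', hdeg'⟩, C, ⟨D', hdeg'⟩, hC, fun v => ?_, rfl, hroot⟩
  rw [← hD v, hD' v]

/-- **The AJ core from the descent statement** (any of the three descent routes). -/
theorem exists_AJ' {N p : ℕ} [NeZero N] (hp : p ≠ 0)
    (hadd : LeafRelAdd N p) (hZR : LeafZR N p) (hhecke : LeafHecke N p)
    (hdict : LeafDict N) (hdesc : LeafDesc N p) (han2 : LeafAN2 N p)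
    (han0 : LeafAN0 N p) (hdescent : LeafDescent N p) (han5 : LeafAN5 N p)
    (han6 : LeafAN6 N p) (hord : LeafORD N p) :
    ∃ AJ : ↥(Hp N p) →+ JZero N, Function.Injective AJ ∧ (∀ ψ, p • AJ ψ = 0) ∧
      (∀ ψ : ↥(Hp N p), Rel N p (ψ : Additive (Gamma0 N) →+ ZMod p) (AJ ψ)) ∧
      ∀ (ℓ : Nat.Primes), ¬ (ℓ : ℕ) ∣ N → ∀ (ψ : ↥(Hp N p))
        (h : heckeHom N ℓ (ZMod p) (ψ : Additive (Gamma0 N) →+ ZMod p) ∈ Hp N p),
        heckeOperatorBar N ℓ (AJ ψ) = AJ ⟨heckeHom N ℓ (ZMod p) ψ, h⟩ :=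
  exists_AJ_of_leaves hp hadd hZR hhecke
    (relZeroLeft_of_leaves hp hdict han2 hdesc)
    (relExists_of_descent hp han0 hdescent han5 han6 hord)

end Fermat.Agent.S42.H96
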