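/-
Program A, AJ core: leaf 10 (`LeafFIN`) from the landed `S42/H4/FinChar.lean`.  (helper96)
-/
import Mathlib
import Fermat.Agent.S42.H96.Skeleton
import Fermat.Agent.S42.H4.FinChar

set_option autoImplicit false

namespace Fermat.Agent.S42.H96

/-- **Leaf 10.** -/
theorem leafFIN (N p : ℕ) [NeZero N] (hp : p ≠ 0) : LeafFIN N p := by
  have : NeZero p := ⟨hp⟩
  exact Fermat.Agent.S42.H4.finite_addHom N p

end Fermat.Agent.S42.H96
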