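/-
Program A, AJ core: leaf 11 (`LeafRigAlg`) from helper78's landed concrete rigidity theorem
`Fermat.Agent.S42.H78.rig` (with `K = ℚ̄`, `L = ℂ`, `Algebra ℚ̄ ℂ := iota.toAlgebra`) and
helper20's transcendence-degree input.  (helper96; adapter only.)
-/
import Mathlib
import Fermat.Agent.S42.H96.Skeleton
import Fermat.Agent.S42.H78.Rig
import Fermat.Agent.S42.H20.Trdeg

set_option autoImplicit false

open ModularCurve AlgebraicCurve
open Fermat.Agent.S24

noncomputable section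

namespace Fermat.Agent.S42.H96

theorem coe_sigM (N : ℕ) (σ : ℂ ≃ₐ[ℚ] ℂ) (g : MC N) :
    ((sigM N σ g : MC N) : LaurentSeries ℂ) = coeffMap (σ : ℂ →+* ℂ) (g : LaurentSeries ℂ) :=
  rfl

theorem sigM_ne_zero (N : ℕ) (σ : ℂ ≃ₐ[ℚ] ℂ) {g : MC N} (hg : g ≠ 0) : sigM N σ g ≠ 0 := by
  intro h
  apply hg
  have h1 : coeffMap (σ : ℂ →+* ℂ) (g : LaurentSeries ℂ) = 0 := by
    rw [← coe_sigM, h]
    rfl
  apply Subtype.ext
  have h2 := congrArg (coeffMap (σ.symm : ℂ →+* ℂ)) h1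
  rw [coeffMap_coeffMap, map_zero] at h2
  have h3 : ((σ.symm : ℂ →+* ℂ)).comp (σ : ℂ →+* ℂ) = RingHom.id ℂ :=
    RingHom.ext fun a => σ.symm_apply_apply a
  rw [h3, coeffMap_id] at h2
  exact h2

/-- **Leaf 11** (every modulus `p`). -/
theorem leafRigAlg (N p : ℕ) : LeafRigAlg N p := by
  intro P T hT κ hinv hκ f hf hPf
  letI : Algebra Kbar ℂ := iota.toAlgebra
  haveI : Finite T := hT
  have htr : ∀ n : ℕ, ∃ t : Fin n → ℂ, AlgebraicIndependent Kbar t := by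
    obtain ⟨s, hs⟩ := Fermat.Agent.S42.H20.exists_algebraicIndependent_nat_iota
    intro n
    exact ⟨fun i => s i, hs.comp _ Fin.val_injective⟩
  have hf' : (f : LaurentSeries ℂ) ≠ 0 := fun h => hf (Subtype.ext h)
  obtain ⟨u₀, hu₀, w, hw, hfw⟩ := Fermat.Agent.S42.H78.rig (K := Kbar) (L := ℂ) htr
    (modularFunctionFieldFull N) p (f : LaurentSeries ℂ) f.2 hf' T (fun σ => κ (sigM N σ f))
    (by
      intro σ τ hσ hτ hc
      have h1 := hinv σ hσ f hf hPf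
      have h2 := hinv τ hτ f hf hPf
      obtain ⟨w, -, hw⟩ := hκ _ _ (sigM_ne_zero N σ hf) (sigM_ne_zero N τ hf) h1 h2 hc
      refine ⟨(w : LaurentSeries ℂ), w.2, ?_⟩
      have := congrArg Subtype.val hw
      exact this)
  have hwp : w ^ p ≠ 0 := by
    intro h
    apply hf'
    rw [hfw, h, mul_zero]
  have hg : coeffMap iota u₀ ∈ laurentBaseChange ℂ (modularFunctionFieldFull N) := by
    have h1 : coeffMap iota u₀ = (f : LaurentSeries ℂ) * (w ^ p)⁻¹ := by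
      rw [hfw, mul_assoc, mul_inv_cancel₀ hwp, mul_one]
      rfl
    rw [h1]
    exact mul_mem f.2 (inv_mem (pow_mem hw p))
  by_cases hw0 : w = 0
  · -- then `p = 0` and `w ^ p = 1`
    have hp0 : p = 0 := by
      by_contra hp
      exact hwp (by rw [hw0, zero_pow hp])
    refine ⟨⟨u₀, hu₀⟩, ⟨coeffMap iota u₀, hg⟩, 1, rfl, one_ne_zero, Subtype.ext ?_⟩
    show (f : LaurentSeries ℂ) = coeffMap iota u₀ * (1 : LaurentSeries ℂ) ^ p
    rw [hfw, hp0, pow_zero, pow_zero]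
    rfl
  · refine ⟨⟨u₀, hu₀⟩, ⟨coeffMap iota u₀, hg⟩, ⟨w, hw⟩, rfl, ?_, Subtype.ext ?_⟩
    · intro h
      exact hw0 (congrArg Subtype.val h)
    · show (f : LaurentSeries ℂ) = coeffMap iota u₀ * w ^ p
      rw [hfw]
      rfl

end Fermat.Agent.S42.H96
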