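/-
Program A, AJ core: leaf 2 (`LeafRelAdd`) — additivity of the Kummer relation.  (helper96)
-/
import Mathlib
import Fermat.Agent.S42.H96.Skeleton

set_option autoImplicit false

open UpperHalfPlane CongruenceSubgroup ModularCurve ModularCurve.Period AlgebraicCurve
open Fermat.Agent.S24 Fermat.Agent.S16.H75
open scoped MatrixGroups Manifold

noncomputable section

namespace Fermat.Agent.S42.H96

theorem zetaP_pow (p : ℕ) (hp : p ≠ 0) : zetaP p ^ p = 1 := by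
  have hp' : (p : ℂ) ≠ 0 := by exact_mod_cast hp
  rw [zetaP, ← Complex.exp_nat_mul]
  have : (p : ℂ) * (2 * Real.pi * Complex.I / p) = 2 * Real.pi * Complex.I := by
    field_simp
  rw [this, Complex.exp_two_pi_mul_I]

/-- `ζ_p ^ ψ` is multiplicative in `ψ`. -/
theorem chiOf_add {N p : ℕ} (hp : p ≠ 0) (ψ ψ' : Additive (Gamma0 N) →+ ZMod p) (γ : Gamma0 N) :
    chiOf p (ψ + ψ') γ = chiOf p ψ γ * chiOf p ψ' γ := by
  have : NeZero p := ⟨hp⟩
  unfold chiOf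
  rw [AddMonoidHom.add_apply, ZMod.val_add, ← pow_add]
  exact (pow_eq_pow_mod _ (zetaP_pow p hp)).symm

theorem hasChar_mul {N p : ℕ} (hp : p ≠ 0) {ψ ψ' : Additive (Gamma0 N) →+ ZMod p} {G G' : ℍ → ℂ}
    (h : HasChar N p ψ G) (h' : HasChar N p ψ' G') : HasChar N p (ψ + ψ') (G * G') := by
  intro γ τ
  rw [Pi.mul_apply, Pi.mul_apply, h γ τ, h' γ τ, chiOf_add hp]
  ring

/-- **Leaf 2.** -/
theorem leafRelAdd (N p : ℕ) (hp : p ≠ 0) : LeafRelAdd N p := by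
  rintro ψ ψ' x x' ⟨C, D, hC, hD, rfl, G, hG, hGp, hGc⟩ ⟨C', D', hC', hD', rfl, G', hG', hGp', hGc'⟩
  refine ⟨C * C', D + D', ?_, fun v => ?_, rfl, G * G', hG.mul hG', fun τ => ?_,
    hasChar_mul hp hGc hGc'⟩
  · rw [map_mul]
    exact mul_ne_zero hC hC'
  · rw [map_mul, v.ord_mul hC hC', hD v, hD' v, AddSubgroup.coe_add, Finsupp.add_apply]
    ring
  · rw [Pi.mul_apply, mul_pow, hGp τ, hGp' τ, map_mul, Pi.mul_apply]

end Fermat.Agent.S42.H96
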