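/-
Program A, AJ core: STAGING of the final assembly.  The leaves that are already on main are
plugged in; the remaining ones are hypotheses.  (helper96)
-/
import Mathlib
import Fermat.Agent.S42.H96.Descent
import Fermat.Agent.S42.H96.R1
import Fermat.Agent.S42.H96.RelAdd
import Fermat.Agent.S42.H96.LeafFIN
import Fermat.Agent.S29.H37.Leaves
import Fermat.Agent.S42.H16.LeafAN5
import Fermat.Agent.S42.H5.LeafORD
import Fermat.Agent.S42.H53.PInv

set_option autoImplicit false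

open UpperHalfPlane CongruenceSubgroup ModularCurve ModularCurve.Period AlgebraicCurve
open Fermat.Agent.S24 Fermat.Agent.S16.H75
open scoped MatrixGroups Manifold

noncomputable section

namespace Fermat.Agent.S42.H96

/-- The AJ core at modulus `p ≠ 0` from the eight leaves not yet on main at 09:15Z. -/
theorem exists_AJ_stage1 {N p : ℕ} [NeZero N] (hp : p ≠ 0)
    (hZR : LeafZR N p) (hhecke : LeafHecke N p) (hdesc : LeafDesc N p)
    (han0 : LeafAN0 N p) (han1 : LeafAN1 N p) (han3 : LeafAN3 N p)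
    (hrig : LeafRigAlg N p) (han6 : LeafAN6 N p) :
    ∃ AJ : ↥(Hp N p) →+ JZero N, Function.Injective AJ ∧ (∀ ψ, p • AJ ψ = 0) ∧
      (∀ ψ : ↥(Hp N p), Rel N p (ψ : Additive (Gamma0 N) →+ ZMod p) (AJ ψ)) ∧
      ∀ (ℓ : Nat.Primes), ¬ (ℓ : ℕ) ∣ N → ∀ (ψ : ↥(Hp N p))
        (h : heckeHom N ℓ (ZMod p) (ψ : Additive (Gamma0 N) →+ ZMod p) ∈ Hp N p),
        heckeOperatorBar N ℓ (AJ ψ) = AJ ⟨heckeHom N ℓ (ZMod p) ψ, h⟩ :=
  exists_AJ hp (leafRelAdd N p hp) hZR hhecke (Fermat.Agent.S29.H37.leafDict N) hdesc han0 han1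
    (Fermat.Agent.S29.H37.leafAN2 N p hp) han3 (Fermat.Agent.S42.H53.leafPINV N p)
    (leafFIN N p hp) hrig (Fermat.Agent.S42.H16.leafAN5 N p) han6
    (Fermat.Agent.S42.H5.leafORD N p hp)

end Fermat.Agent.S42.H96
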